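import Fermat.Agent.Lib.FrobTrace.Char3.Defs

/-!
# FrobTrace / Char3 / Count: Manin's count
(port of `F1/Count.lean` (helper65) to `y² = x³ + a₂ x² + a₄ x + a₆`, `ℓ` odd; helper51)

The rational function `x(P - φP) = maninNum ℓ 1 / maninDen ℓ`, in lowest terms `p/q`, has height
`#E(F_ℓ) = ℓ + 1 - traceOfFrobenius`.

Pure polynomial argument over `ZMod ℓ`: with `f = X³ + a₂ X² + a₄ X + a₆` squarefree and `m = ℓ / 2`,
`Num = f (f^m + 1)² - (X^ℓ + X + a₂)(X^ℓ - X)²` is monic of degree `2ℓ + 1`, `Den = ∏_c (X - c)²`,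
and `X - c` cancels exactly `canc c` times, where `canc c = 1, 0, 2` according as `f(c)` is zero,
a nonzero square, a non-square; so `2 - canc c = #{y | y² = f(c)}`.
-/

set_option autoImplicit false

open Polynomial WeierstrassCurve

namespace Fermat.Agent.FrobTrace.Char3

open Fermat.Agent.F1 (maninDen hpair)

namespace Manin

variable {ℓ : ℕ} [Fact ℓ.Prime]

/-- Numerator of the `x`-coordinate of `P - Frob(P)`, normalised. -/
noncomputable def mNum (a2 A B : ZMod ℓ) : (ZMod ℓ)[X] :=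
  cubic a2 A B * (cubic a2 A B ^ (ℓ / 2) + 1) ^ 2 - (X ^ ℓ + X + C a2) * (X ^ ℓ - X) ^ 2

/-- The multiplicity with which `X - c` cancels. -/
noncomputable def canc (a2 A B c : ZMod ℓ) : ℕ :=
  if (cubic a2 A B).eval c = 0 then 1 else if IsSquare ((cubic a2 A B).eval c) then 0 else 2

lemma canc_le_two (a2 A B c : ZMod ℓ) : canc a2 A B c ≤ 2 := by
  unfold canc; split_ifs <;> omega

@[simp] lemma eval_cubic (a2 A B c : ZMod ℓ) :
    (cubic a2 A B).eval c = c ^ 3 + a2 * c ^ 2 + A * c + B := by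
  simp [cubic]

lemma eval_X_pow_sub_X (c : ZMod ℓ) : (X ^ ℓ - X : (ZMod ℓ)[X]).eval c = 0 := by
  simp [ZMod.pow_card]

lemma X_sub_C_dvd_X_pow_sub_X (c : ZMod ℓ) : (X - C c) ∣ (X ^ ℓ - X : (ZMod ℓ)[X]) :=
  dvd_iff_isRoot.mpr (eval_X_pow_sub_X c)

lemma eval_mNum (a2 A B c : ZMod ℓ) :
    (mNum a2 A B).eval c = (cubic a2 A B).eval c * (((cubic a2 A B).eval c) ^ (ℓ / 2) + 1) ^ 2 := by
  have h := eval_X_pow_sub_X c
  simp only [mNum, eval_sub, eval_mul, eval_pow, eval_add, eval_one, eval_X, eval_C] at h ⊢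
  rw [h]; ring

lemma half_pos (_hℓ2 : ℓ ≠ 2) : 0 < ℓ / 2 := by
  have := (Fact.out : ℓ.Prime).two_le
  omega

lemma two_mul_half_add_one (hℓ2 : ℓ ≠ 2) : 2 * (ℓ / 2) + 1 = ℓ := by
  have hodd := (Fact.out : ℓ.Prime).eq_two_or_odd.resolve_left hℓ2
  omega

lemma two_ne_zero' (hℓ2 : ℓ ≠ 2) : (2 : ZMod ℓ) ≠ 0 := by
  intro h
  have : ((2 : ℕ) : ZMod ℓ) = 0 := by exact_mod_cast h
  rw [ZMod.natCast_eq_zero_iff] at this
  have hp := (Fact.out : ℓ.Prime)
  have := (Nat.prime_dvd_prime_iff_eq hp Nat.prime_two).mp this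
  exact hℓ2 this

/-- Euler's criterion, in the form we need. -/
lemma pow_half_eq (hℓ2 : ℓ ≠ 2) {a : ZMod ℓ} (ha : a ≠ 0) :
    (IsSquare a ∧ a ^ (ℓ / 2) = 1) ∨ (¬ IsSquare a ∧ a ^ (ℓ / 2) = -1) := by
  have h1 := ZMod.euler_criterion (p := ℓ) ha
  rcases ZMod.pow_div_two_eq_neg_one_or_one ℓ ha with h | h
  · left; exact ⟨h1.mpr h, h⟩
  · right
    refine ⟨fun hs => ?_, h⟩
    have := h1.mp hs
    rw [h] at this
    have h2 : (2 : ZMod ℓ) = 0 := by linear_combination -this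
    exact two_ne_zero' hℓ2 h2

/-- `(X - c)^{canc c}` divides the numerator. -/
lemma pow_canc_dvd_mNum (hℓ2 : ℓ ≠ 2) (a2 A B c : ZMod ℓ) :
    (X - C c) ^ canc a2 A B c ∣ mNum a2 A B := by
  unfold canc
  split_ifs with h0 hsq
  · rw [pow_one, dvd_iff_isRoot, IsRoot, eval_mNum, h0, zero_mul]
  · simp
  · have hm : (cubic a2 A B).eval c ^ (ℓ / 2) = -1 := by
      rcases pow_half_eq hℓ2 h0 with ⟨hs, _⟩ | ⟨_, h⟩
      · exact absurd hs hsq
      · exact h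
    have h1 : (X - C c) ∣ cubic a2 A B ^ (ℓ / 2) + 1 := by
      rw [dvd_iff_isRoot, IsRoot, eval_add, eval_pow, eval_one, hm]; ring
    have h2 : (X - C c) ^ 2 ∣ (cubic a2 A B ^ (ℓ / 2) + 1) ^ 2 := pow_dvd_pow_of_dvd h1 2
    have h3 : (X - C c) ^ 2 ∣ (X ^ ℓ - X : (ZMod ℓ)[X]) ^ 2 :=
      pow_dvd_pow_of_dvd (X_sub_C_dvd_X_pow_sub_X c) 2
    exact dvd_sub (Dvd.dvd.mul_left h2 _) (Dvd.dvd.mul_left h3 _)

/-- the discriminant of the cubic -/
def disc3 {R : Type*} [CommRing R] (a2 a4 a6 : R) : R :=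
  a2 ^ 2 * a4 ^ 2 - 4 * a4 ^ 3 - 4 * a2 ^ 3 * a6 + 18 * a2 * a4 * a6 - 27 * a6 ^ 2

/-- The discriminant identity. -/
lemma disc_of_double_root {a2 a4 a6 c : ZMod ℓ} (h1 : c ^ 3 + a2 * c ^ 2 + a4 * c + a6 = 0)
    (h2 : 3 * c ^ 2 + 2 * a2 * c + a4 = 0) : disc3 a2 a4 a6 = 0 := by
  unfold disc3
  linear_combination (15 * a2 * a4 + (-6) * a2 ^ 2 * c + (-4) * a2 ^ 3 + 18 * a4 * c
      + (-27) * a6) * h1
    + ((-7) * a2 * a4 * c + 3 * a2 * a6 + a2 ^ 2 * a4 + 2 * a2 ^ 2 * c ^ 2 + 2 * a2 ^ 3 * c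
      + (-6) * a4 * c ^ 2 + (-4) * a4 ^ 2 + 9 * a6 * c) * h2

/-- The cubic is squarefree. -/
lemma not_sq_dvd_cubic {a2 A B : ZMod ℓ} (hdisc : disc3 a2 A B ≠ 0) (c : ZMod ℓ) :
    ¬ (X - C c) ^ 2 ∣ cubic a2 A B := by
  rintro ⟨h, hh⟩
  have e1 : (cubic a2 A B).eval c = 0 := by rw [hh]; simp
  have e2 : (derivative (cubic a2 A B)).eval c = 0 := by
    rw [hh]; simp [derivative_mul, derivative_pow]
  have e2' : (derivative (cubic a2 A B)).eval c = 3 * c ^ 2 + 2 * a2 * c + A := by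
    simp [cubic, derivative_pow]
    ring
  rw [eval_cubic] at e1
  rw [e2'] at e2
  exact hdisc (disc_of_double_root e1 e2)

/-- `(X - c)^{canc c + 1}` does not divide the numerator when `canc c < 2`. -/
lemma not_pow_canc_succ_dvd (hℓ2 : ℓ ≠ 2) {a2 A B : ZMod ℓ} (hdisc : disc3 a2 A B ≠ 0)
    (c : ZMod ℓ) (hc : canc a2 A B c < 2) : ¬ (X - C c) ^ (canc a2 A B c + 1) ∣ mNum a2 A B := by
  unfold canc at hc ⊢
  split_ifs at hc ⊢ with h0 hsq
  · -- simple zero of the cubic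
    intro hdvd
    have h3 : (X - C c) ^ 2 ∣ (X ^ ℓ + X + C a2) * (X ^ ℓ - X : (ZMod ℓ)[X]) ^ 2 :=
      Dvd.dvd.mul_left (pow_dvd_pow_of_dvd (X_sub_C_dvd_X_pow_sub_X c) 2) _
    have h4 : (X - C c) ^ 2 ∣ cubic a2 A B * (cubic a2 A B ^ (ℓ / 2) + 1) ^ 2 := by
      have := dvd_add hdvd h3
      simpa [mNum] using this
    have hcop : IsCoprime ((X - C c) ^ 2) ((cubic a2 A B ^ (ℓ / 2) + 1) ^ 2) := by
      apply IsCoprime.pow
      rw [(irreducible_X_sub_C c).coprime_iff_not_dvd, dvd_iff_isRoot, IsRoot, eval_add, eval_pow,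
        eval_one, h0, zero_pow (half_pos hℓ2).ne', zero_add]
      exact one_ne_zero
    exact not_sq_dvd_cubic hdisc c (hcop.dvd_of_dvd_mul_right h4)
  · -- nonzero square
    rw [zero_add, pow_one, dvd_iff_isRoot, IsRoot, eval_mNum]
    have hm : (cubic a2 A B).eval c ^ (ℓ / 2) = 1 := by
      rcases pow_half_eq hℓ2 h0 with ⟨_, h⟩ | ⟨hs, _⟩
      · exact h
      · exact absurd hsq hs
    rw [hm]
    have h2 := two_ne_zero' hℓ2
    have : ((1 : ZMod ℓ) + 1) ^ 2 ≠ 0 := by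
      rw [one_add_one_eq_two]; exact pow_ne_zero 2 h2
    exact mul_ne_zero h0 this
  · omega

/-! ### The cancelling factor and the reduced denominator -/

/-- The common factor `∏ (X - c)^{canc c}`. -/
noncomputable def gPoly (a2 A B : ZMod ℓ) : (ZMod ℓ)[X] := ∏ c : ZMod ℓ, (X - C c) ^ canc a2 A B c

/-- The reduced denominator `∏ (X - c)^{2 - canc c}`. -/
noncomputable def dPoly (a2 A B : ZMod ℓ) : (ZMod ℓ)[X] := ∏ c : ZMod ℓ, (X - C c) ^ (2 - canc a2 A B c)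

lemma gPoly_dvd_mNum (hℓ2 : ℓ ≠ 2) (a2 A B : ZMod ℓ) : gPoly a2 A B ∣ mNum a2 A B := by
  unfold gPoly
  apply Fintype.prod_dvd_of_coprime
  · intro c d hcd
    exact (isCoprime_X_sub_C_of_isUnit_sub (sub_ne_zero.mpr hcd).isUnit).pow
  · intro c
    exact pow_canc_dvd_mNum hℓ2 a2 A B c

lemma prod_X_sub_C_eq : ∏ c : ZMod ℓ, (X - C c) = (X ^ ℓ - X : (ZMod ℓ)[X]) := by
  have hp := (Fact.out : ℓ.Prime)
  have hroots : (X ^ ℓ - X : (ZMod ℓ)[X]).roots = Finset.univ.val := by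
    have := FiniteField.roots_X_pow_card_sub_X (ZMod ℓ)
    rwa [ZMod.card] at this
  have hmonic : (X ^ ℓ - X : (ZMod ℓ)[X]).Monic := by
    apply monic_X_pow_sub
    rw [degree_X]
    exact_mod_cast hp.one_lt
  have hdeg : (X ^ ℓ - X : (ZMod ℓ)[X]).natDegree = ℓ :=
    FiniteField.X_pow_card_sub_X_natDegree_eq (ZMod ℓ) hp.one_lt
  have hcard : Multiset.card (X ^ ℓ - X : (ZMod ℓ)[X]).roots
      = (X ^ ℓ - X : (ZMod ℓ)[X]).natDegree := by
    rw [hroots, hdeg]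
    simp [ZMod.card]
  have h := prod_multiset_X_sub_C_of_monic_of_roots_card_eq hmonic hcard
  rw [hroots] at h
  exact h

lemma gPoly_mul_dPoly (a2 A B : ZMod ℓ) : gPoly a2 A B * dPoly a2 A B = maninDen (ZMod ℓ) ℓ := by
  unfold gPoly dPoly maninDen
  rw [← Finset.prod_mul_distrib]
  have h : ∀ c : ZMod ℓ, (X - C c : (ZMod ℓ)[X]) ^ canc a2 A B c * (X - C c) ^ (2 - canc a2 A B c)
      = (X - C c) ^ 2 := by
    intro c
    rw [← pow_add]
    congr 1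
    have := canc_le_two a2 A B c
    omega
  simp_rw [h]
  rw [Finset.prod_pow, prod_X_sub_C_eq]

lemma gPoly_monic (a2 A B : ZMod ℓ) : (gPoly a2 A B).Monic :=
  monic_prod_of_monic _ _ fun c _ => (monic_X_sub_C c).pow _

lemma dPoly_monic (a2 A B : ZMod ℓ) : (dPoly a2 A B).Monic :=
  monic_prod_of_monic _ _ fun c _ => (monic_X_sub_C c).pow _

lemma natDegree_gPoly (a2 A B : ZMod ℓ) : (gPoly a2 A B).natDegree = ∑ c : ZMod ℓ, canc a2 A B c := by
  unfold gPoly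
  rw [natDegree_prod_of_monic _ _ fun c _ => (monic_X_sub_C c).pow _]
  refine Finset.sum_congr rfl fun c _ => ?_
  rw [(monic_X_sub_C c).natDegree_pow, natDegree_X_sub_C, mul_one]

lemma natDegree_dPoly (a2 A B : ZMod ℓ) :
    (dPoly a2 A B).natDegree = ∑ c : ZMod ℓ, (2 - canc a2 A B c) := by
  unfold dPoly
  rw [natDegree_prod_of_monic _ _ fun c _ => (monic_X_sub_C c).pow _]
  refine Finset.sum_congr rfl fun c _ => ?_
  rw [(monic_X_sub_C c).natDegree_pow, natDegree_X_sub_C, mul_one]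

lemma sum_canc_add (a2 A B : ZMod ℓ) :
    (∑ c : ZMod ℓ, canc a2 A B c) + ∑ c : ZMod ℓ, (2 - canc a2 A B c) = 2 * ℓ := by
  rw [← Finset.sum_add_distrib]
  have h : ∀ c : ZMod ℓ, canc a2 A B c + (2 - canc a2 A B c) = 2 := by
    intro c
    have := canc_le_two a2 A B c
    omega
  simp_rw [h]
  simp [ZMod.card, mul_comm]

/-! ### Degree of the numerator -/

lemma cubic_pow_card (a2 A B : ZMod ℓ) :
    cubic a2 A B ^ ℓ = X ^ (3 * ℓ) + C a2 * X ^ (2 * ℓ) + C A * X ^ ℓ + C B := by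
  rw [← ZMod.expand_card]
  unfold cubic
  simp only [map_add, map_mul, map_pow, expand_X, expand_C]
  rw [← pow_mul, ← pow_mul, mul_comm ℓ 3, mul_comm ℓ 2]

/-- lower-order part of the numerator -/
noncomputable def mRest (a2 A B : ZMod ℓ) : (ZMod ℓ)[X] :=
  X ^ (ℓ + 2) + 2 * cubic a2 A B ^ (ℓ / 2 + 1) + C A * X ^ ℓ + C A * X + 2 * C B
    + 2 * C a2 * X ^ (ℓ + 1)

lemma mNum_eq (hℓ2 : ℓ ≠ 2) (a2 A B : ZMod ℓ) : mNum a2 A B = X ^ (2 * ℓ + 1) + mRest a2 A B := by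
  have h1 := cubic_pow_card a2 A B
  have h2 : ∀ n : ℕ, n = 2 * (ℓ / 2) + 1 →
      cubic a2 A B ^ n = cubic a2 A B * (cubic a2 A B ^ (ℓ / 2)) ^ 2 := by
    rintro n rfl
    ring
  rw [h2 ℓ (two_mul_half_add_one hℓ2).symm] at h1
  unfold mNum mRest
  have h3 : cubic a2 A B = X ^ 3 + C a2 * X ^ 2 + C A * X + C B := rfl
  linear_combination h1 + (1 : (ZMod ℓ)[X]) * h3

omit [Fact ℓ.Prime] in
lemma natDegree_cubic_le (a2 A B : ZMod ℓ) : (cubic a2 A B).natDegree ≤ 3 := by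
  unfold cubic
  compute_degree

lemma natDegree_mRest_le (hℓ2 : ℓ ≠ 2) (a2 A B : ZMod ℓ) : (mRest a2 A B).natDegree ≤ 2 * ℓ := by
  have hℓ := two_mul_half_add_one hℓ2
  have hm := half_pos hℓ2
  have hc : (cubic a2 A B ^ (ℓ / 2 + 1)).natDegree ≤ 2 * ℓ := by
    refine (natDegree_pow_le_of_le _ (natDegree_cubic_le a2 A B)).trans ?_
    omega
  unfold mRest
  refine natDegree_add_le_of_degree_le (natDegree_add_le_of_degree_le (natDegree_add_le_of_degree_le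
    (natDegree_add_le_of_degree_le (natDegree_add_le_of_degree_le ?_ ?_) ?_) ?_) ?_) ?_
  · rw [natDegree_X_pow]; omega
  · refine (natDegree_mul_le_of_le (m := 0) ?_ hc).trans (by omega)
    exact (natDegree_ofNat 2).le
  · refine (natDegree_C_mul_le _ _).trans ?_
    rw [natDegree_X_pow]; omega
  · refine (natDegree_C_mul_le _ _).trans ?_
    rw [natDegree_X]; omega
  · refine (natDegree_mul_le_of_le (n := 0) (m := 0) ?_ ?_).trans (by omega)
    · exact (natDegree_ofNat 2).le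
    · exact (natDegree_C B).le
  · refine (natDegree_mul_le_of_le (m := 0) (n := ℓ + 1) ?_ ?_).trans (by omega)
    · refine (natDegree_mul_le_of_le (n := 0) (m := 0) ?_ ?_).trans (by omega)
      · exact (natDegree_ofNat 2).le
      · exact (natDegree_C a2).le
    · rw [natDegree_X_pow]

lemma natDegree_mNum (hℓ2 : ℓ ≠ 2) (a2 A B : ZMod ℓ) : (mNum a2 A B).natDegree = 2 * ℓ + 1 := by
  rw [mNum_eq hℓ2, natDegree_add_eq_left_of_natDegree_lt, natDegree_X_pow]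
  rw [natDegree_X_pow]
  exact Nat.lt_succ_of_le (natDegree_mRest_le hℓ2 a2 A B)

lemma mNum_ne_zero (hℓ2 : ℓ ≠ 2) (a2 A B : ZMod ℓ) : mNum a2 A B ≠ 0 := by
  intro h
  have := natDegree_mNum hℓ2 a2 A B
  rw [h, natDegree_zero] at this
  omega

/-! ### The reduced fraction -/

lemma exists_reduced (hℓ2 : ℓ ≠ 2) {a2 A B : ZMod ℓ} (hdisc : disc3 a2 A B ≠ 0) :
    ∃ p : (ZMod ℓ)[X], mNum a2 A B = gPoly a2 A B * p ∧ IsCoprime p (dPoly a2 A B) ∧
      p.natDegree = 1 + ∑ c : ZMod ℓ, (2 - canc a2 A B c) := by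
  obtain ⟨p, hp⟩ := gPoly_dvd_mNum hℓ2 a2 A B
  refine ⟨p, hp, ?_, ?_⟩
  · unfold dPoly
    apply IsCoprime.prod_right
    intro c _
    by_cases hc : canc a2 A B c < 2
    · apply IsCoprime.pow_right
      rw [isCoprime_comm, (irreducible_X_sub_C c).coprime_iff_not_dvd]
      intro hdvd
      apply not_pow_canc_succ_dvd hℓ2 hdisc c hc
      rw [hp, pow_succ]
      refine mul_dvd_mul ?_ hdvd
      unfold gPoly
      exact Finset.dvd_prod_of_mem (fun c => (X - C c) ^ canc a2 A B c) (Finset.mem_univ c)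
    · have : 2 - canc a2 A B c = 0 := by omega
      rw [this, pow_zero]
      exact isCoprime_one_right
  · have hne := mNum_ne_zero hℓ2 a2 A B
    have hp0 : p ≠ 0 := by
      rintro rfl
      rw [mul_zero] at hp
      exact hne hp
    have hd := natDegree_mNum hℓ2 a2 A B
    rw [hp, (gPoly_monic a2 A B).natDegree_mul' hp0, natDegree_gPoly] at hd
    have := sum_canc_add a2 A B
    omega

/-! ### Counting points -/

lemma ringChar_ne_two (hℓ2 : ℓ ≠ 2) : ringChar (ZMod ℓ) ≠ 2 := by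
  rw [ZMod.ringChar_zmod_n]; exact hℓ2

open Classical in
lemma card_sqrt (hℓ2 : ℓ ≠ 2) (a2 A B c : ZMod ℓ) :
    Fintype.card {y : ZMod ℓ // y ^ 2 = c ^ 3 + a2 * c ^ 2 + A * c + B} = 2 - canc a2 A B c := by
  have h := quadraticChar_card_sqrts (ringChar_ne_two hℓ2) (c ^ 3 + a2 * c ^ 2 + A * c + B)
  have hcard : Fintype.card {y : ZMod ℓ // y ^ 2 = c ^ 3 + a2 * c ^ 2 + A * c + B}
      = ({x : ZMod ℓ | x ^ 2 = c ^ 3 + a2 * c ^ 2 + A * c + B}.toFinset).card := by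
    rw [Fintype.card_subtype]
    congr 1
    ext x
    simp
  rw [hcard]
  unfold canc
  rw [eval_cubic]
  split_ifs with h0 hsq
  · rw [quadraticChar_eq_zero_iff.mpr h0] at h
    omega
  · rw [(quadraticChar_one_iff_isSquare h0).mpr hsq] at h
    omega
  · rw [quadraticChar_neg_one_iff_not_isSquare.mpr hsq] at h
    omega

lemma medW_disc {a2 A B : ZMod ℓ} (hΔ : (medW a2 A B).Δ ≠ 0) :
    disc3 a2 A B ≠ 0 := by
  intro h
  apply hΔ
  unfold disc3 at h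
  simp only [medW, WeierstrassCurve.Δ, WeierstrassCurve.b₂, WeierstrassCurve.b₄,
    WeierstrassCurve.b₆, WeierstrassCurve.b₈]
  linear_combination (16 : ZMod ℓ) * h

open Classical in
lemma card_points (hℓ2 : ℓ ≠ 2) {a2 A B : ZMod ℓ} (hΔ : (medW a2 A B).Δ ≠ 0) :
    Nat.card (medW a2 A B).toAffine.Point
      = 1 + ∑ c : ZMod ℓ, (2 - canc a2 A B c) := by
  rw [Nat.card_congr (Affine.nonsingularPointEquiv (medW a2 A B).toAffine)]
  have e1 : {xy : ZMod ℓ × ZMod ℓ //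
      (medW a2 A B).toAffine.Nonsingular xy.1 xy.2}
      ≃ Σ c : ZMod ℓ, {y : ZMod ℓ // y ^ 2 = c ^ 3 + a2 * c ^ 2 + A * c + B} :=
    (Equiv.subtypeEquivRight (fun xy => by
      rw [← Affine.equation_iff_nonsingular_of_Δ_ne_zero hΔ, Affine.equation_iff]
      simp [medW])).trans
      (Equiv.subtypeProdEquivSigmaSubtype
        (fun (c y : ZMod ℓ) => y ^ 2 = c ^ 3 + a2 * c ^ 2 + A * c + B))
  change Nat.card (Option _) = _
  rw [Finite.card_option, Nat.card_congr e1, Nat.card_eq_fintype_card, Fintype.card_sigma,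
    add_comm]
  congr 1
  exact Finset.sum_congr rfl fun c _ => card_sqrt hℓ2 a2 A B c


/-- The normalised numerator is the numerator of `Defs`. -/
lemma maninNum_one_eq (hℓ2 : ℓ ≠ 2) (a2 A B : ZMod ℓ) : maninNum a2 A B ℓ 1 = mNum a2 A B := by
  have hhalf : (ℓ - 1) / 2 = ℓ / 2 := by
    have := two_mul_half_add_one hℓ2
    omega
  unfold maninNum mNum
  rw [hhalf, map_one]
  ring

end Manin

open Manin in
theorem manin_count (ℓ : ℕ) [Fact ℓ.Prime] (hℓ2 : ℓ ≠ 2) (a2 A B : ZMod ℓ)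
    (hΔ : (medW a2 A B).Δ ≠ 0) :
    ∃ p q : (ZMod ℓ)[X], IsCoprime p q ∧ q ≠ 0 ∧
      p * maninDen (ZMod ℓ) ℓ = q * maninNum a2 A B ℓ 1 ∧
      ((hpair p q : ℕ) : ℤ) = (ℓ : ℤ) + 1 - (medW a2 A B).traceOfFrobenius := by
  obtain ⟨p, hp, hcop, hdeg⟩ := exists_reduced hℓ2 (medW_disc hΔ)
  refine ⟨p, dPoly a2 A B, hcop, (dPoly_monic a2 A B).ne_zero, ?_, ?_⟩
  · rw [maninNum_one_eq hℓ2, hp, ← gPoly_mul_dPoly]
    ring
  · have hcard := card_points hℓ2 hΔ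
    have hmax : hpair p (dPoly a2 A B) = 1 + ∑ c : ZMod ℓ, (2 - canc a2 A B c) := by
      unfold hpair
      rw [hdeg, natDegree_dPoly]
      omega
    rw [hmax, ← hcard]
    simp only [WeierstrassCurve.traceOfFrobenius, WeierstrassCurve.card, Nat.card_zmod]
    ring

end Fermat.Agent.FrobTrace.Char3
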