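import Mathlib
import Fermat.Agent.F1.Defs

/-!
# FrobTrace / Char3: `φ² - a φ + ℓ = 0` for `y² = x³ + a₂ x² + a₄ x + a₆` over `F_ℓ`, `ℓ` odd
(helper51; port of the F1 files of helper4, helper10, helper64, helper65, helper88, helper96)

Definitions: the curve `medW a₂ a₄ a₆`, the cubic, the unreduced Manin numerator.
-/

set_option autoImplicit false

open Polynomial

namespace Fermat.Agent.FrobTrace.Char3

/-- The Weierstrass curve `y² = x³ + a₂ x² + a₄ x + a₆`. -/
def medW {R : Type*} [CommRing R] (a2 a4 a6 : R) : WeierstrassCurve R := ⟨0, a2, 0, a4, a6⟩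

/-- the cubic `X³ + a₂ X² + a₄ X + a₆` -/
noncomputable def cubic {R : Type*} [CommRing R] (a2 a4 a6 : R) : R[X] :=
  X ^ 3 + C a2 * X ^ 2 + C a4 * X + C a6

/-- unreduced numerator of `x(P - φP)` (sign `+1`) resp. `x(P + φP)` (sign `-1`), `q = ℓ`:
`f (1 ± f^((q-1)/2))² - (X + X^q + a₂)(X^q - X)²`. -/
noncomputable def maninNum {R : Type*} [CommRing R] (a2 a4 a6 : R) (q : ℕ) (s : R) : R[X] :=
  cubic a2 a4 a6 * (1 + C s * cubic a2 a4 a6 ^ ((q - 1) / 2)) ^ 2
    - (X + X ^ q + C a2) * (X ^ q - X) ^ 2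

end Fermat.Agent.FrobTrace.Char3
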