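import Fermat.Agent.Lib.FrobTrace.Char3.Defs

/-!
# FrobTrace / Char3 / SubFrob: the chord formula for `Q - φ Q` and `Q + φ Q`
(port of `F1/SubFrob.lean` (helper88) to `y² = x³ + a₂ x² + a₄ x + a₆`, `ℓ` odd; helper51)
-/

set_option autoImplicit false

open Polynomial WeierstrassCurve WeierstrassCurve.Affine

namespace Fermat.Agent.FrobTrace.Char3

open Fermat.Agent.S52 (frobPt)
open Fermat.Agent.F1 (maninDen)

variable {ℓ : ℕ} [Fact ℓ.Prime] {a2 a4 a6 : ZMod ℓ}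
variable {L : Type*} [Field L] [Algebra (ZMod ℓ) L]

/-- the curve equation over `L` -/
theorem sf_equation {x y : L} (h : ((medW a2 a4 a6)⁄L).Nonsingular x y) :
    y ^ 2 = x ^ 3 + algebraMap (ZMod ℓ) L a2 * x ^ 2 + algebraMap (ZMod ℓ) L a4 * x
      + algebraMap (ZMod ℓ) L a6 := by
  have h1 := h.1
  rw [Affine.equation_iff] at h1
  simpa [medW] using h1

theorem sf_aeval_cubic (x : L) :
    aeval x (cubic a2 a4 a6) = x ^ 3 + algebraMap (ZMod ℓ) L a2 * x ^ 2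
      + algebraMap (ZMod ℓ) L a4 * x + algebraMap (ZMod ℓ) L a6 := by
  simp [cubic]

theorem sf_aeval_maninNum (x : L) (s : ZMod ℓ) :
    aeval x (maninNum a2 a4 a6 ℓ s) =
      aeval x (cubic a2 a4 a6)
          * (1 + algebraMap (ZMod ℓ) L s * aeval x (cubic a2 a4 a6) ^ ((ℓ - 1) / 2)) ^ 2
        - (x + x ^ ℓ + algebraMap (ZMod ℓ) L a2) * (x ^ ℓ - x) ^ 2 := by
  simp [maninNum]

theorem sf_aeval_maninDen (x : L) :
    aeval x (maninDen (ZMod ℓ) ℓ) = (x ^ ℓ - x) ^ 2 := by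
  simp [maninDen]

omit [Algebra (ZMod ℓ) L] in
theorem sf_pow_half (hℓ : ℓ ≠ 2) (y : L) : y * (y ^ 2) ^ ((ℓ - 1) / 2) = y ^ ℓ := by
  have hodd : ℓ % 2 = 1 := by
    rcases (Fact.out : ℓ.Prime).eq_two_or_odd with h2 | h2
    · exact absurd h2 hℓ
    · exact h2
  have h2 : 2 * ((ℓ - 1) / 2) + 1 = ℓ := by omega
  rw [← pow_mul, ← pow_succ', h2]

variable [DecidableEq L]

/-- Frobenius on an affine point is the coordinatewise `ℓ`-th power. -/
theorem sf_frobPt_some {x y : L} (h : ((medW a2 a4 a6)⁄L).Nonsingular x y) :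
    ∃ h' : ((medW a2 a4 a6)⁄L).Nonsingular (x ^ ℓ) (y ^ ℓ),
      frobPt (medW a2 a4 a6) L (Point.some x y h) = Point.some (x ^ ℓ) (y ^ ℓ) h' := by
  have key : ∀ (x' y' : L) (_ : x' = x ^ ℓ) (_ : y' = y ^ ℓ)
      (h' : ((medW a2 a4 a6)⁄L).Nonsingular x' y'),
      ∃ h'' : ((medW a2 a4 a6)⁄L).Nonsingular (x ^ ℓ) (y ^ ℓ),
        Point.some x' y' h' = Point.some (x ^ ℓ) (y ^ ℓ) h'' := by
    intro x' y' hx hy h'
    subst hx hy
    exact ⟨h', rfl⟩
  have hcard : Fintype.card (ZMod ℓ) = ℓ := ZMod.card ℓ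
  refine key _ _ ?_ ?_ _
  · simp [hcard]
  · simp [hcard]

set_option linter.unusedSectionVars false in
theorem sf_sub_eq {x y : L} (h : ((medW a2 a4 a6)⁄L).Nonsingular x y)
    (h' : ((medW a2 a4 a6)⁄L).Nonsingular (x ^ ℓ) (y ^ ℓ)) (hx : x ^ ℓ ≠ x) :
    Point.some x y h - Point.some (x ^ ℓ) (y ^ ℓ) h' =
      Point.some _ _ (Affine.nonsingular_add h ((Affine.nonsingular_neg ..).mpr h')
        fun hxy => hx hxy.left.symm) := by
  rw [sub_eq_add_neg, Point.neg_some, Point.add_of_X_ne (Ne.symm hx)]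

theorem xRep_sub_frob (hℓ : ℓ ≠ 2) {x y : L} (h : ((medW a2 a4 a6)⁄L).Nonsingular x y)
    (hx : x ^ ℓ ≠ x) :
    ∃ c : L, c ≠ 0 ∧
      aeval x (maninNum a2 a4 a6 ℓ 1) =
        c * (Point.some x y h - frobPt (medW a2 a4 a6) L (Point.some x y h)).xRep 0 ∧
      aeval x (maninDen (ZMod ℓ) ℓ) =
        c * (Point.some x y h - frobPt (medW a2 a4 a6) L (Point.some x y h)).xRep 1 := by
  obtain ⟨h', hf⟩ := sf_frobPt_some h
  have hne : x ^ ℓ - x ≠ 0 := sub_ne_zero.mpr hx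
  have hne' : x - x ^ ℓ ≠ 0 := sub_ne_zero.mpr (Ne.symm hx)
  have hsub := sf_sub_eq h h' hx
  rw [← hf] at hsub
  refine ⟨(x ^ ℓ - x) ^ 2, pow_ne_zero _ hne, ?_, ?_⟩
  · rw [hsub, Point.xRep_some, sf_aeval_maninNum, sf_aeval_cubic, ← sf_equation h]
    simp only [Matrix.cons_val_zero]
    rw [Affine.addX, Affine.slope_of_X_ne (Ne.symm hx)]
    have hy := sf_pow_half hℓ y
    simp only [medW, Affine.negY, WeierstrassCurve.baseChange, WeierstrassCurve.map_a₁,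
      WeierstrassCurve.map_a₂, WeierstrassCurve.map_a₃, map_zero, map_one]
    field_simp
    rw [← hy]
    ring
  · rw [hsub, Point.xRep_some, sf_aeval_maninDen]
    simp

theorem xRep_add_frob (hℓ : ℓ ≠ 2) {x y : L} (h : ((medW a2 a4 a6)⁄L).Nonsingular x y)
    (hx : x ^ ℓ ≠ x) :
    ∃ c : L, c ≠ 0 ∧
      aeval x (maninNum a2 a4 a6 ℓ (-1)) =
        c * (Point.some x y h + frobPt (medW a2 a4 a6) L (Point.some x y h)).xRep 0 ∧
      aeval x (maninDen (ZMod ℓ) ℓ) =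
        c * (Point.some x y h + frobPt (medW a2 a4 a6) L (Point.some x y h)).xRep 1 := by
  obtain ⟨h', hf⟩ := sf_frobPt_some h
  have hne : x ^ ℓ - x ≠ 0 := sub_ne_zero.mpr hx
  have hne' : x - x ^ ℓ ≠ 0 := sub_ne_zero.mpr (Ne.symm hx)
  have hadd : Point.some x y h + frobPt (medW a2 a4 a6) L (Point.some x y h) = _ :=
    hf ▸ Point.add_of_X_ne (h₁ := h) (h₂ := h') (Ne.symm hx)
  refine ⟨(x ^ ℓ - x) ^ 2, pow_ne_zero _ hne, ?_, ?_⟩
  · rw [hadd, Point.xRep_some, sf_aeval_maninNum, sf_aeval_cubic, ← sf_equation h]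
    simp only [Matrix.cons_val_zero]
    rw [Affine.addX, Affine.slope_of_X_ne (Ne.symm hx)]
    have hy := sf_pow_half hℓ y
    simp only [medW, WeierstrassCurve.baseChange, WeierstrassCurve.map_a₁,
      WeierstrassCurve.map_a₂, map_zero, map_one, map_neg]
    field_simp
    rw [← hy]
    ring
  · rw [hadd, Point.xRep_some, sf_aeval_maninDen]
    simp

end Fermat.Agent.FrobTrace.Char3
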