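import Fermat.Agent.F1.Mult
import Fermat.Agent.Lib.FrobTrace.Char3.OddRat
import Fermat.Agent.Lib.FrobTrace.Char3.Count
import Fermat.Agent.Lib.FrobTrace.Char3.SubFrob

/-!
# FrobTrace / Char3 / Mult: `ht (Q - φ Q) = #E(F_ℓ) · ht Q` on odd-rational points
(port of `F1/Mult.lean` (helper4) to `y² = x³ + a₂ x² + a₄ x + a₆`, `ℓ` odd; helper51)

For an affine point `Q = (x, y)` with `x^ℓ ≠ x` the chord formula gives
`x(Q - φQ) = maninNum(x) / maninDen(x)`; with the reduced Manin pair `(p, q)` (`Count.lean`) and a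
representative `x = a(ξ)/b(ξ)` this is `hom2 n p a b (ξ) / hom2 n q a b (ξ)` (`Compose.lean`).
-/

set_option autoImplicit false

open Polynomial WeierstrassCurve WeierstrassCurve.Affine IntermediateField

namespace Fermat.Agent.FrobTrace.Char3

open Fermat.Agent.S52 (frobPt)
open Fermat.Agent.F1 (XRat ht ht_eq hpair xRat_zero ht_zero ht_parallelogram hom2 hom2_eval
  isCoprime_hom2 hpair_hom2 maninDen hpair_eq_zero_of_pow_mul)



variable {ℓ : ℕ} [Fact ℓ.Prime] {a2 a4 a6 : ZMod ℓ}
variable (k : Type*) [Field k] [Algebra (ZMod ℓ) k]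
variable {L : Type*} [Field L] [Algebra (ZMod ℓ) L] [Algebra k L] [IsScalarTower (ZMod ℓ) k L]
variable [DecidableEq L] {ξ η : L} (hns : ((medW a2 a4 a6)⁄L).Nonsingular ξ η)

omit [DecidableEq L] in
/-- if the x-coordinate is fixed by Frobenius, the height is `0` -/
theorem ht_eq_zero_of_pow_eq (htr : Transcendental k ξ) {x y : L}
    (h : ((medW a2 a4 a6)⁄L).Nonsingular x y) {a b : k[X]} (hQ : XRat ξ (Point.some x y h) a b)
    (hx : x ^ ℓ = x) : ht k ξ (Point.some x y h) = 0 := by
  rw [ht_eq htr hQ]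
  obtain ⟨hab, c, hc, ha, hb⟩ := hQ
  simp only [Point.xRep_some, Matrix.cons_val_zero, Matrix.cons_val_one, mul_one] at ha hb
  have hb0 : b ≠ 0 := by
    rintro rfl
    rw [map_zero] at hb
    exact hc hb.symm
  apply hpair_eq_zero_of_pow_mul hab hb0 (n := ℓ) (Fact.out : ℓ.Prime).two_le
  apply (transcendental_iff_injective.mp htr)
  simp only [map_mul, map_pow, ha, hb]
  rw [mul_pow, hx]
  ring

theorem ht_sub_frob (hℓ : ℓ ≠ 2) (hΔ : (medW a2 a4 a6).Δ ≠ 0) (htr : Transcendental k ξ)
    {Q : ((medW a2 a4 a6)⁄L).Point} (hQ : Q ∈ oddRat k hns) :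
    (ht k ξ (Q - frobPt (medW a2 a4 a6) L Q) : ℤ)
      = ((ℓ : ℤ) + 1 - (medW a2 a4 a6).traceOfFrobenius) * ht k ξ Q := by
  haveI : (medW a2 a4 a6).IsElliptic := ⟨isUnit_iff_ne_zero.mpr hΔ⟩
  have hW : ((medW a2 a4 a6).map (algebraMap (ZMod ℓ) k)).map (algebraMap k L) = (medW a2 a4 a6)⁄L := by
    rw [WeierstrassCurve.map_map, ← IsScalarTower.algebraMap_eq]
    rfl
  have hφQ := frob_mem_oddRat k hns hℓ hQ
  obtain ⟨a, b, hab⟩ := exists_xRat_of_mem k hns hQ
  -- degenerate case, via the parallelogram law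
  have hdeg : ht k ξ Q = 0 → (ht k ξ (Q - frobPt (medW a2 a4 a6) L Q) : ℤ)
      = ((ℓ : ℤ) + 1 - (medW a2 a4 a6).traceOfFrobenius) * ht k ξ Q := by
    intro h0
    have hp := ht_parallelogram ((medW a2 a4 a6).map (algebraMap (ZMod ℓ) k)) hW htr Q
      (frobPt (medW a2 a4 a6) L Q) ⟨a, b, hab⟩ (exists_xRat_of_mem k hns hφQ)
      (exists_xRat_of_mem k hns ((oddRat k hns).add_mem hQ hφQ))
      (exists_xRat_of_mem k hns ((oddRat k hns).sub_mem hQ hφQ))
    rw [ht_frob k htr ⟨a, b, hab⟩, h0] at hp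
    have : ht k ξ (Q - frobPt (medW a2 a4 a6) L Q) = 0 := by omega
    rw [this, h0]
    simp
  match Q, hQ, hφQ, hab, hdeg with
  | .zero, _, _, _, hdeg => exact hdeg (ht_zero htr)
  | .some x y h, hQ, hφQ, hab, hdeg =>
    by_cases hx : x ^ ℓ = x
    · exact hdeg (ht_eq_zero_of_pow_eq k htr h hab hx)
    · obtain ⟨p, q, hpq, hq0, hid, hcount⟩ := manin_count ℓ hℓ a2 a4 a6 hΔ
      obtain ⟨c₁, hc₁, hN, hD⟩ := xRep_sub_frob hℓ h hx
      set R := Point.some x y h - frobPt (medW a2 a4 a6) L (Point.some x y h) with hR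
      -- the pair over `k`
      set pk := p.map (algebraMap (ZMod ℓ) k) with hpk
      set qk := q.map (algebraMap (ZMod ℓ) k) with hqk
      have hcop : IsCoprime pk qk := hpq.map (Polynomial.mapRingHom (algebraMap (ZMod ℓ) k))
      have hdp : pk.natDegree = p.natDegree :=
        natDegree_map_eq_of_injective (algebraMap (ZMod ℓ) k).injective p
      have hdq : qk.natDegree = q.natDegree :=
        natDegree_map_eq_of_injective (algebraMap (ZMod ℓ) k).injective q
      have hh : hpair pk qk = hpair p q := by simp only [hpair, hdp, hdq]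
      have hpx : aeval x pk = aeval x p := by
        rw [hpk, aeval_map_algebraMap]
      have hqx : aeval x qk = aeval x q := by
        rw [hqk, aeval_map_algebraMap]
      -- `[p(x) : q(x)]` is proportional to `R.xRep`
      have hid' : aeval x p * aeval x (maninDen (ZMod ℓ) ℓ) = aeval x q * aeval x (maninNum a2 a4 a6 ℓ 1) := by
        rw [← map_mul, ← map_mul, hid]
      rw [hN, hD] at hid'
      have hcross : aeval x p * R.xRep 1 = aeval x q * R.xRep 0 := by
        apply mul_left_cancel₀ hc₁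
        linear_combination hid'
      have hne : ¬ (aeval x p = 0 ∧ aeval x q = 0) := by
        rintro ⟨h1, h2⟩
        obtain ⟨u, v, huv⟩ := hpq
        have := congrArg (aeval x) huv
        simp [h1, h2] at this
      have hprop : ∃ c₂ : L, c₂ ≠ 0 ∧ aeval x p = c₂ * R.xRep 0 ∧ aeval x q = c₂ * R.xRep 1 := by
        rcases hRR : R with _ | ⟨x₃, y₃, h₃⟩
        · rw [hRR] at hcross
          simp only [← Point.zero_def, Point.xRep_zero, Matrix.cons_val_zero, Matrix.cons_val_one,
            mul_zero, mul_one] at hcross ⊢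
          refine ⟨aeval x p, ?_, rfl, hcross.symm⟩
          intro h1
          exact hne ⟨h1, hcross.symm⟩
        · rw [hRR] at hcross
          simp only [Point.xRep_some, Matrix.cons_val_zero, Matrix.cons_val_one, mul_one]
            at hcross ⊢
          refine ⟨aeval x q, ?_, hcross, rfl⟩
          intro h2
          exact hne ⟨by rw [hcross, h2, zero_mul], h2⟩
      obtain ⟨c₂, hc₂, hp2, hq2⟩ := hprop
      -- representation of `x`
      obtain ⟨hab1, c, hc, ha, hb⟩ := hab
      simp only [Point.xRep_some, Matrix.cons_val_zero, Matrix.cons_val_one, mul_one] at ha hb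
      have hbξ : aeval ξ b ≠ 0 := by rw [hb]; exact hc
      have hxab : aeval ξ a / aeval ξ b = x := by
        rw [ha, hb]
        field_simp
      have hRrep : XRat ξ R (hom2 (hpair pk qk) pk a b) (hom2 (hpair pk qk) qk a b) := by
        refine ⟨isCoprime_hom2 pk qk a b hcop hab1, aeval ξ b ^ hpair pk qk * c₂,
          mul_ne_zero (pow_ne_zero _ hbξ) hc₂, ?_, ?_⟩
        · rw [hom2_eval (hpair pk qk) pk a b (le_max_left _ _) ξ hbξ, hxab, hpx, hp2]
          ring
        · rw [hom2_eval (hpair pk qk) qk a b (le_max_right _ _) ξ hbξ, hxab, hqx, hq2]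
          ring
      rw [ht_eq htr hRrep, ht_eq htr ⟨hab1, c, hc, by simpa using ha, by simpa using hb⟩,
        hpair_hom2 pk qk a b hcop hab1, hh, ← hcount]
      push_cast
      ring

end Fermat.Agent.FrobTrace.Char3
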