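import Fermat.Agent.F1.Transfer
import Fermat.Agent.Lib.FrobTrace.Char3.Defs

/-!
# FrobTrace / Char3 / Transfer: from the generic identity to every point of `E(k)`
(port of `F1/Transfer.lean`, `F1/TransferAux.lean` (helper96) to `y² = x³ + a₂ x² + a₄ x + a₆`,
`ℓ` odd; helper51)
-/

set_option autoImplicit false

open Polynomial WeierstrassCurve WeierstrassCurve.Affine

namespace Fermat.Agent.FrobTrace.Char3

open Fermat.Agent.S52 (frobPt)
open Fermat.Agent.F1 (charPt transfer_charPt_add transfer_charPt_two_nsmul transfer_charPt_map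
  transfer_exists_generic transfer_translate)

/-- the discriminant identity, over any commutative ring -/
theorem disc_identity {R : Type*} [CommRing R] (a2 a4 a6 c : R) :
    a2 ^ 2 * a4 ^ 2 - 4 * a4 ^ 3 - 4 * a2 ^ 3 * a6 + 18 * a2 * a4 * a6 - 27 * a6 ^ 2
      = (15 * a2 * a4 + (-6) * a2 ^ 2 * c + (-4) * a2 ^ 3 + 18 * a4 * c + (-27) * a6)
          * (c ^ 3 + a2 * c ^ 2 + a4 * c + a6)
        + ((-7) * a2 * a4 * c + 3 * a2 * a6 + a2 ^ 2 * a4 + 2 * a2 ^ 2 * c ^ 2 + 2 * a2 ^ 3 * c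
            + (-6) * a4 * c ^ 2 + (-4) * a4 ^ 2 + 9 * a6 * c) * (3 * c ^ 2 + 2 * a2 * c + a4) := by
  ring

section TwoDiv

variable {k : Type*} [Field k] [IsAlgClosed k] [DecidableEq k]

/-- `2`-divisibility of `E(k)` for a curve `y² = cubic` over an algebraically closed field of
characteristic `≠ 2`. -/
theorem exists_two_nsmul (W : Affine k) (h1 : W.a₁ = 0) (h3 : W.a₃ = 0)
    (hΔ : W.Δ ≠ 0) (h2k : (2 : k) ≠ 0) (P : W.Point) : ∃ Q : W.Point, 2 • Q = P := by
  rcases P with _ | ⟨x₀, y₀, hP⟩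
  · exact ⟨0, by rw [smul_zero]; rfl⟩
  set A2 := W.a₂ with hA2
  set A := W.a₄ with hA
  set B := W.a₆ with hB
  have hΔ' : 16 * (A2 ^ 2 * A ^ 2 - 4 * A ^ 3 - 4 * A2 ^ 3 * B + 18 * A2 * A * B - 27 * B ^ 2)
      ≠ 0 := by
    have : W.Δ = 16 * (A2 ^ 2 * A ^ 2 - 4 * A ^ 3 - 4 * A2 ^ 3 * B + 18 * A2 * A * B
        - 27 * B ^ 2) := by
      simp only [WeierstrassCurve.Δ, WeierstrassCurve.b₂, WeierstrassCurve.b₄,
        WeierstrassCurve.b₆, WeierstrassCurve.b₈, h1, h3, hA2, hA, hB]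
      ring
    rwa [this] at hΔ
  let p : k[X] := X ^ 4 + (C (-(4 * x₀)) * X ^ 3 + C (-(2 * A) - 4 * x₀ * A2) * X ^ 2
    + C (-(8 * B) - 4 * x₀ * A) * X + C (A ^ 2 - 4 * A2 * B - 4 * x₀ * B))
  have hpdeg : p.degree = 4 := by
    have hlt : (C (-(4 * x₀)) * X ^ 3 + C (-(2 * A) - 4 * x₀ * A2) * X ^ 2
        + C (-(8 * B) - 4 * x₀ * A) * X + C (A ^ 2 - 4 * A2 * B - 4 * x₀ * B) : k[X]).degree
        < 4 := (degree_cubic_le).trans_lt (by norm_num)
    simp only [p]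
    rw [degree_add_eq_left_of_degree_lt (by rwa [degree_X_pow])]
    exact degree_X_pow 4
  obtain ⟨x, hx⟩ := IsAlgClosed.exists_root p (by rw [hpdeg]; norm_num)
  have hx' : x ^ 4 - 2 * A * x ^ 2 - 8 * B * x + A ^ 2 - 4 * A2 * B
      - 4 * x₀ * (x ^ 3 + A2 * x ^ 2 + A * x + B) = 0 := by
    have : eval x p = 0 := hx
    simp only [p, eval_add, eval_mul, eval_pow, eval_X, eval_C] at this
    linear_combination this
  obtain ⟨y, hy⟩ := IsAlgClosed.exists_pow_nat_eq (x ^ 3 + A2 * x ^ 2 + A * x + B) (n := 2)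
    (by norm_num)
  -- `f x ≠ 0`
  have hfx : x ^ 3 + A2 * x ^ 2 + A * x + B ≠ 0 := by
    intro h0
    have h4 : (3 * x ^ 2 + 2 * A2 * x + A) ^ 2 = 0 := by
      linear_combination hx' + (8 * x + 4 * A2 + 4 * x₀) * h0
    have h5 : 3 * x ^ 2 + 2 * A2 * x + A = 0 := by simpa using h4
    apply hΔ'
    rw [disc_identity A2 A B x, h0, h5]
    ring
  have hy0 : y ≠ 0 := by
    rintro rfl
    apply hfx
    rw [← hy]; ring
  have hEq : W.Equation x y := by
    rw [Affine.equation_iff, h1, h3]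
    linear_combination hy
  have hNs : W.Nonsingular x y := (W.equation_iff_nonsingular_of_Δ_ne_zero hΔ).mp hEq
  have hneg : W.negY x y = -y := by simp [Affine.negY, h1, h3]
  have hyne : y ≠ W.negY x y := by
    rw [hneg]
    intro h
    apply hy0
    have : (2 : k) * y = 0 := by linear_combination h
    rcases mul_eq_zero.mp this with h' | h'
    · exact absurd h' h2k
    · exact h'
  have h2y : (2 : k) * y ≠ 0 := mul_ne_zero h2k hy0
  -- x-coordinate of `2 • Q`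
  have hdbl : (2 : ℕ) • (Point.some x y hNs) = Point.some _ _
      (Affine.nonsingular_add hNs hNs (fun hh => hyne hh.2)) := by
    rw [two_nsmul, Point.add_self_of_Y_ne hyne]
  have hslope : W.slope x x y y = (3 * x ^ 2 + 2 * A2 * x + A) / (2 * y) := by
    rw [Affine.slope_of_Y_ne rfl hyne, hneg, h1]
    congr 1
    · ring
    · ring
  have hX : W.addX x x (W.slope x x y y) = x₀ := by
    rw [hslope, Affine.addX, h1]
    field_simp
    have hy2 : y ^ 2 = x ^ 3 + A2 * x ^ 2 + A * x + B := hy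
    linear_combination hx' + (-(8 * x) - 4 * A2 - 4 * x₀) * hy2
  -- conclude `2 • Q = ± P`
  have key := (Point.X_eq_iff (W := W) (h₁ := Affine.nonsingular_add hNs hNs
    (fun hh => hyne hh.2)) (h₂ := hP)).mp hX
  rcases key with h | h
  · exact ⟨Point.some x y hNs, by rw [hdbl, h]⟩
  · refine ⟨-Point.some x y hNs, ?_⟩
    rw [smul_neg, hdbl, h, neg_neg]

end TwoDiv

/-- the generic identity, as a hypothesis -/
def GenericIdentity {ℓ : ℕ} [Fact ℓ.Prime] (a2 a4 a6 : ZMod ℓ) (a : ℤ)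
    (k : Type) [Field k] [Algebra (ZMod ℓ) k] : Prop :=
  ∀ (L : Type) [Field L] [Algebra (ZMod ℓ) L] [Algebra k L] [IsScalarTower (ZMod ℓ) k L]
    [DecidableEq L] (ξ η : L) (hns : ((medW a2 a4 a6)⁄L).Nonsingular ξ η),
    Transcendental k ξ → 2 • charPt (medW a2 a4 a6) a L (Point.some ξ η hns) = 0

theorem transfer {ℓ : ℕ} [Fact ℓ.Prime] (hℓ : ℓ ≠ 2) (a2 a4 a6 : ZMod ℓ)
    (hΔ : (medW a2 a4 a6).Δ ≠ 0)
    (a : ℤ) (k : Type) [Field k] [Algebra (ZMod ℓ) k] [IsAlgClosed k] [DecidableEq k]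
    (hgen : GenericIdentity a2 a4 a6 a k) (P : ((medW a2 a4 a6)⁄k).Point) :
    charPt (medW a2 a4 a6) a k P = 0 := by
  classical
  -- Step 1: `2 • charPt R = 0` for every `R ∈ E(k)` (translation of a generic point)
  have h2 : ∀ R : ((medW a2 a4 a6)⁄k).Point, 2 • charPt (medW a2 a4 a6) a k R = 0 := by
    intro R
    obtain ⟨ξ, η, hns, hξ⟩ := transfer_exists_generic (medW a2 a4 a6) hΔ k
    obtain ⟨ξ', η', hns', hξ', hsum⟩ := transfer_translate (medW a2 a4 a6) hns hξ R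
    have e1 := hgen (AlgebraicClosure (RatFunc k)) ξ η hns hξ
    have e2 := hgen (AlgebraicClosure (RatFunc k)) ξ' η' hns' hξ'
    rw [← hsum, transfer_charPt_add, smul_add, e1, zero_add, transfer_charPt_map, ← map_nsmul]
      at e2
    exact Affine.Point.map_injective _ (e2.trans (map_zero _).symm)
  -- Step 2: `E(k)` is `2`-divisible
  have h2k : (2 : k) ≠ 0 := by
    have h2' : (2 : ZMod ℓ) ≠ 0 := by
      intro h
      have : ((2 : ℕ) : ZMod ℓ) = 0 := by exact_mod_cast h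
      rw [ZMod.natCast_eq_zero_iff] at this
      exact hℓ ((Nat.prime_dvd_prime_iff_eq (Fact.out : ℓ.Prime) Nat.prime_two).mp this)
    have : (2 : k) = algebraMap (ZMod ℓ) k 2 := (map_ofNat (algebraMap (ZMod ℓ) k) 2).symm
    rw [this]
    exact (map_ne_zero_iff _ (FaithfulSMul.algebraMap_injective (ZMod ℓ) k)).mpr h2'
  have hΔk : ((medW a2 a4 a6)⁄k).Δ ≠ 0 := by
    have : ((medW a2 a4 a6)⁄k).Δ = algebraMap (ZMod ℓ) k (medW a2 a4 a6).Δ :=
      WeierstrassCurve.map_Δ (medW a2 a4 a6) (algebraMap (ZMod ℓ) k)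
    rw [this]
    exact (map_ne_zero_iff _ (FaithfulSMul.algebraMap_injective (ZMod ℓ) k)).mpr hΔ
  obtain ⟨Q, hQ⟩ := exists_two_nsmul ((medW a2 a4 a6)⁄k)
    (by simp [medW, WeierstrassCurve.Affine.baseChange])
    (by simp [medW, WeierstrassCurve.Affine.baseChange]) hΔk h2k P
  rw [← hQ, transfer_charPt_two_nsmul]
  exact h2 Q

end Fermat.Agent.FrobTrace.Char3
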