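import Fermat.Agent.Lib.FrobTrace.Char3.MedHom
import Fermat.Agent.Lib.FrobTrace.Char3.Final

/-!
# FrobTrace / Char3 / CharEqOdd: `φ² - a φ + ℓ = 0` for a general Weierstrass equation over `F_ℓ`,
every odd prime `ℓ` (in particular `ℓ = 3`)
(helper51)
-/

set_option autoImplicit false

open WeierstrassCurve WeierstrassCurve.Affine

namespace Fermat.Agent.FrobTrace.Char3

open Fermat.Agent.S52 (frobPt)

/-- Cayley–Hamilton for Frobenius on the points of an arbitrary (smooth) Weierstrass equation over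
`F_ℓ`, `ℓ` an odd prime. -/
theorem frobCharEq_gen_odd {ℓ : ℕ} [Fact ℓ.Prime] (hℓ : ℓ ≠ 2) (W : WeierstrassCurve (ZMod ℓ))
    (hΔ : W.Δ ≠ 0) (k : Type) [Field k] [Algebra (ZMod ℓ) k] [IsAlgClosed k] [DecidableEq k]
    (P : (W⁄k).Point) :
    frobPt W k (frobPt W k P) - W.traceOfFrobenius • frobPt W k P + (ℓ : ℤ) • P = 0 := by
  have h2 := two_ne_zero_of_odd_prime hℓ
  obtain ⟨h, hinj, hfrob⟩ := exists_medHom hℓ W k
  apply hinj
  have htr : W.traceOfFrobenius = (medW W.b₂ (8 * W.b₄) (16 * W.b₆)).traceOfFrobenius :=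
    traceOfFrobenius_eq_medModel W h2
  rw [map_zero, map_add, map_sub, map_zsmul, map_zsmul, hfrob, hfrob, htr]
  exact frobCharEq_medW ℓ hℓ _ _ _ (medW_Δ_ne_zero hℓ W hΔ) k (h P)

/-- the case `ℓ = 3` -/
theorem frobCharEq_three (W : WeierstrassCurve (ZMod 3))
    (hΔ : W.Δ ≠ 0) (k : Type) [Field k] [Algebra (ZMod 3) k] [IsAlgClosed k] [DecidableEq k]
    (P : (W⁄k).Point) :
    frobPt W k (frobPt W k P) - W.traceOfFrobenius • frobPt W k P + ((3 : ℕ) : ℤ) • P = 0 :=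
  frobCharEq_gen_odd (by norm_num) W hΔ k P

end Fermat.Agent.FrobTrace.Char3
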