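import Mathlib
import Fermat.Agent.S52.Iface
import Fermat.Agent.Lib.FrobTrace.Char3.Defs

/-!
# FrobTrace / Char3 / MedHom: the medium model `Y² = X³ + b₂ X² + 8 b₄ X + 16 b₆`
(helper51; port of helper75's `S52/ShortModel.lean` and helper65's `Lib/FrobTrace/ShortHom.lean`)

Over a field in which `2` is invertible, `(x, y) ↦ (4 x, 4 (2 y + a₁ x + a₃))` is a group
isomorphism of `W` onto `medModel W = medW b₂ (8 b₄) (16 b₆)`, compatible with base change and with
Frobenius; the slopes transform as `λ' = 2 λ + a₁`.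
-/

set_option autoImplicit false

open WeierstrassCurve WeierstrassCurve.Affine

namespace Fermat.Agent.FrobTrace.Char3

open Fermat.Agent.S52 (frobPt)

section Field

variable {F : Type*} [Field F] (W : WeierstrassCurve F)

/-- The medium model `Y² = X³ + b₂ X² + 8 b₄ X + 16 b₆` of a Weierstrass curve. -/
def medModel : WeierstrassCurve F := medW W.b₂ (8 * W.b₄) (16 * W.b₆)

/-- `x`-coordinate of the image of a point on the medium model. -/
def toMedX (x : F) : F := 4 * x

/-- `y`-coordinate of the image of a point on the medium model. -/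
def toMedY (x y : F) : F := 4 * (2 * y + W.a₁ * x + W.a₃)

/-- `x`-coordinate of the preimage of a point of the medium model. -/
noncomputable def ofMedX (X : F) : F := X / 4

/-- `y`-coordinate of the preimage of a point of the medium model. -/
noncomputable def ofMedY (X Y : F) : F := (Y / 4 - W.a₁ * ofMedX X - W.a₃) / 2

lemma medModel_a₁ : (medModel W).a₁ = 0 := rfl
lemma medModel_a₂ : (medModel W).a₂ = W.b₂ := rfl
lemma medModel_a₃ : (medModel W).a₃ = 0 := rfl
lemma medModel_a₄ : (medModel W).a₄ = 8 * W.b₄ := rfl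
lemma medModel_a₆ : (medModel W).a₆ = 16 * W.b₆ := rfl

lemma medModel_Δ : (medModel W).Δ = 2 ^ 12 * W.Δ := by
  simp only [medModel, medW, WeierstrassCurve.Δ, WeierstrassCurve.b₂, WeierstrassCurve.b₄,
    WeierstrassCurve.b₆, WeierstrassCurve.b₈]
  ring

lemma medModel_Δ_ne_zero (h2 : (2 : F) ≠ 0) (hΔ : W.Δ ≠ 0) : (medModel W).Δ ≠ 0 := by
  rw [medModel_Δ]
  exact mul_ne_zero (pow_ne_zero _ h2) hΔ

variable {W}

lemma medHom_four_ne_zero (h2 : (2 : F) ≠ 0) : (4 : F) ≠ 0 := by
  have : (4 : F) = 2 ^ 2 := by norm_num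
  rw [this]
  exact pow_ne_zero _ h2

lemma medHom_eight_ne_zero (h2 : (2 : F) ≠ 0) : (8 : F) ≠ 0 := by
  have : (8 : F) = 2 ^ 3 := by norm_num
  rw [this]
  exact pow_ne_zero _ h2

lemma medHom_sixteen_ne_zero (h2 : (2 : F) ≠ 0) : (16 : F) ≠ 0 := by
  have : (16 : F) = 2 ^ 4 := by norm_num
  rw [this]
  exact pow_ne_zero _ h2

lemma medHom_sixtyfour_ne_zero (h2 : (2 : F) ≠ 0) : (64 : F) ≠ 0 := by
  have : (64 : F) = 2 ^ 6 := by norm_num
  rw [this]
  exact pow_ne_zero _ h2

lemma medModel_equation_iff (X Y : F) :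
    (medModel W).toAffine.Equation X Y ↔
      Y ^ 2 = X ^ 3 + W.b₂ * X ^ 2 + (8 * W.b₄) * X + (16 * W.b₆) := by
  rw [Affine.equation_iff]
  simp [medModel, medW]

lemma medModel_nonsingular_iff (X Y : F) :
    (medModel W).toAffine.Nonsingular X Y ↔
      (medModel W).toAffine.Equation X Y ∧
        (3 * X ^ 2 + 2 * W.b₂ * X + (8 * W.b₄) ≠ 0 ∨ 2 * Y ≠ 0) := by
  rw [Affine.nonsingular_iff]
  simp only [medModel, medW]
  constructor
  · rintro ⟨h, h' | h'⟩
    · refine ⟨h, Or.inl ?_⟩
      intro h0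
      apply h'
      linear_combination (-1 : F) * h0
    · refine ⟨h, Or.inr ?_⟩
      intro h0
      apply h'
      linear_combination h0
  · rintro ⟨h, h' | h'⟩
    · refine ⟨h, Or.inl ?_⟩
      intro h0
      apply h'
      linear_combination (-1 : F) * h0
    · refine ⟨h, Or.inr ?_⟩
      intro h0
      apply h'
      linear_combination h0

lemma toMed_equation {x y : F} (h : W.toAffine.Equation x y) :
    (medModel W).toAffine.Equation (toMedX x) (toMedY W x y) := by
  rw [medModel_equation_iff]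
  rw [Affine.equation_iff] at h
  simp only [toMedX, toMedY, WeierstrassCurve.b₂, WeierstrassCurve.b₄, WeierstrassCurve.b₆]
  linear_combination (64 : F) * h

lemma toMed_nonsingular (h2 : (2 : F) ≠ 0) {x y : F}
    (h : W.toAffine.Nonsingular x y) :
    (medModel W).toAffine.Nonsingular (toMedX x) (toMedY W x y) := by
  rw [medModel_nonsingular_iff]
  rw [Affine.nonsingular_iff] at h
  obtain ⟨he, hns⟩ := h
  refine ⟨toMed_equation he, ?_⟩
  by_cases hη : 2 * y + W.a₁ * x + W.a₃ = 0
  · left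
    have hx : W.a₁ * y ≠ 3 * x ^ 2 + 2 * W.a₂ * x + W.a₄ := by
      rcases hns with h' | h'
      · exact h'
      · exact absurd (by linear_combination hη) h'
    intro h0
    apply hx
    have key : (16 : F) * (W.a₁ * y - (3 * x ^ 2 + 2 * W.a₂ * x + W.a₄)) = 0 := by
      simp only [toMedX, WeierstrassCurve.b₂, WeierstrassCurve.b₄] at h0
      linear_combination (-1 : F) * h0 + (8 * W.a₁) * hη
    have := (mul_eq_zero.mp key).resolve_left (medHom_sixteen_ne_zero h2)
    linear_combination this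
  · right
    have : 2 * toMedY W x y = 8 * (2 * y + W.a₁ * x + W.a₃) := by
      simp only [toMedY]; ring
    rw [this]
    exact mul_ne_zero (medHom_eight_ne_zero h2) hη

lemma ofMed_toMed_X (h2 : (2 : F) ≠ 0) (x : F) :
    ofMedX (toMedX x) = x := by
  have h4 := medHom_four_ne_zero h2
  simp only [ofMedX, toMedX]
  field_simp

lemma ofMed_toMed_Y (h2 : (2 : F) ≠ 0) (x y : F) :
    ofMedY W (toMedX x) (toMedY W x y) = y := by
  have h4 := medHom_four_ne_zero h2
  simp only [ofMedY, ofMed_toMed_X h2, toMedY]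
  field_simp
  ring

lemma toMed_ofMed_X (h2 : (2 : F) ≠ 0) (X : F) :
    toMedX (ofMedX X) = X := by
  have h4 := medHom_four_ne_zero h2
  simp only [ofMedX, toMedX]
  field_simp

lemma toMed_ofMed_Y (h2 : (2 : F) ≠ 0) (X Y : F) :
    toMedY W (ofMedX X) (ofMedY W X Y) = Y := by
  have h4 := medHom_four_ne_zero h2
  simp only [ofMedY, toMedY]
  field_simp
  ring

lemma ofMed_nonsingular (h2 : (2 : F) ≠ 0) {X Y : F}
    (h : (medModel W).toAffine.Nonsingular X Y) :
    W.toAffine.Nonsingular (ofMedX X) (ofMedY W X Y) := by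
  set x := ofMedX X with hx
  set y := ofMedY W X Y with hy
  have hX : X = toMedX x := (toMed_ofMed_X h2 X).symm
  have hY : Y = toMedY W x y := (toMed_ofMed_Y h2 X Y).symm
  rw [medModel_nonsingular_iff, medModel_equation_iff] at h
  obtain ⟨he, hns⟩ := h
  rw [Affine.nonsingular_iff, Affine.equation_iff]
  have heq : y ^ 2 + W.a₁ * x * y + W.a₃ * y = x ^ 3 + W.a₂ * x ^ 2 + W.a₄ * x + W.a₆ := by
    have key : (64 : F) * (y ^ 2 + W.a₁ * x * y + W.a₃ * y
        - (x ^ 3 + W.a₂ * x ^ 2 + W.a₄ * x + W.a₆)) = 0 := by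
      rw [hX, hY] at he
      simp only [toMedX, toMedY, WeierstrassCurve.b₂, WeierstrassCurve.b₄,
        WeierstrassCurve.b₆] at he
      linear_combination he
    have := (mul_eq_zero.mp key).resolve_left (medHom_sixtyfour_ne_zero h2)
    linear_combination this
  refine ⟨heq, ?_⟩
  by_contra hcon
  push Not at hcon
  obtain ⟨hc1, hc2⟩ := hcon
  rcases hns with h' | h'
  · apply h'
    rw [hX]
    simp only [toMedX, WeierstrassCurve.b₂, WeierstrassCurve.b₄]
    linear_combination (-16 : F) * hc1 + (8 * W.a₁) * hc2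
  · apply h'
    rw [hY]
    simp only [toMedY]
    linear_combination (8 : F) * hc2

variable (W)

/-- The explicit bijection between the points of `W` and the points of its medium model. -/
noncomputable def toMedEquiv (h2 : (2 : F) ≠ 0) :
    W.toAffine.Point ≃ (medModel W).toAffine.Point where
  toFun P :=
    match P with
    | .zero => .zero
    | .some x y h => .some (toMedX x) (toMedY W x y) (toMed_nonsingular h2 h)
  invFun Q :=
    match Q with
    | .zero => .zero
    | .some X Y h => .some (ofMedX X) (ofMedY W X Y) (ofMed_nonsingular h2 h)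
  left_inv P := by
    cases P with
    | zero => rfl
    | some x y h =>
      simp only
      congr 1
      · exact ofMed_toMed_X h2 x
      · exact ofMed_toMed_Y h2 x y
  right_inv Q := by
    cases Q with
    | zero => rfl
    | some X Y h =>
      simp only
      congr 1
      · exact toMed_ofMed_X h2 X
      · exact toMed_ofMed_Y h2 X Y

theorem card_eq_card_medModel (h2 : (2 : F) ≠ 0) :
    W.card = (medModel W).card :=
  Nat.card_congr (toMedEquiv W h2)

theorem traceOfFrobenius_eq_medModel (h2 : (2 : F) ≠ 0) :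
    W.traceOfFrobenius = (medModel W).traceOfFrobenius := by
  simp only [WeierstrassCurve.traceOfFrobenius, card_eq_card_medModel W h2]

lemma medHom_negY' (X Y : F) : (medModel W).toAffine.negY X Y = -Y := by
  simp [Affine.negY, medModel_a₁, medModel_a₃]

lemma medHom_negY (x y : F) :
    (medModel W).toAffine.negY (toMedX x) (toMedY W x y)
      = toMedY W x (W.toAffine.negY x y) := by
  rw [medHom_negY']
  simp only [toMedY, Affine.negY]
  ring

lemma medHom_toMedX_inj (h2 : (2 : F) ≠ 0) {x₁ x₂ : F}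
    (h : toMedX x₁ = toMedX x₂) : x₁ = x₂ := by
  simp only [toMedX] at h
  have : (4 : F) * (x₁ - x₂) = 0 := by linear_combination h
  rcases mul_eq_zero.mp this with h' | h'
  · exact absurd h' (medHom_four_ne_zero h2)
  · exact sub_eq_zero.mp h'

lemma medHom_toMedY_inj (h2 : (2 : F) ≠ 0) {x y₁ y₂ : F}
    (h : toMedY W x y₁ = toMedY W x y₂) : y₁ = y₂ := by
  simp only [toMedY] at h
  have : (8 : F) * (y₁ - y₂) = 0 := by linear_combination h
  rcases mul_eq_zero.mp this with h' | h'
  · exact absurd h' (medHom_eight_ne_zero h2)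
  · exact sub_eq_zero.mp h'

variable [DecidableEq F]

/-- the slopes transform as `λ' = 2 λ + a₁` -/
lemma medHom_slope (h2 : (2 : F) ≠ 0) {x₁ x₂ y₁ y₂ : F}
    (h₁ : W.toAffine.Equation x₁ y₁) (h₂ : W.toAffine.Equation x₂ y₂)
    (hxy : ¬(x₁ = x₂ ∧ y₁ = W.toAffine.negY x₂ y₂)) :
    (medModel W).toAffine.slope (toMedX x₁) (toMedX x₂) (toMedY W x₁ y₁)
        (toMedY W x₂ y₂)
      = 2 * W.toAffine.slope x₁ x₂ y₁ y₂ + W.a₁ := by
  have h4 := medHom_four_ne_zero h2
  have h8 := medHom_eight_ne_zero h2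
  by_cases hx : x₁ = x₂
  · have hy : y₁ ≠ W.toAffine.negY x₂ y₂ := fun h => hxy ⟨hx, h⟩
    have hy' : toMedY W x₁ y₁ ≠ (medModel W).toAffine.negY (toMedX x₂) (toMedY W x₂ y₂) := by
      rw [medHom_negY]
      subst hx
      exact fun h => hy (medHom_toMedY_inj W h2 h)
    rw [Affine.slope_of_Y_ne (congrArg _ hx) hy', Affine.slope_of_Y_ne hx hy]
    have hyy : y₁ = y₂ := Affine.Y_eq_of_Y_ne h₁ h₂ hx hy
    subst hx hyy
    have hD : y₁ - W.toAffine.negY x₁ y₁ ≠ 0 := sub_ne_zero.mpr hy
    have hD' : toMedY W x₁ y₁ - (medModel W).toAffine.negY (toMedX x₁) (toMedY W x₁ y₁)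
        ≠ 0 := sub_ne_zero.mpr hy'
    rw [div_eq_iff hD']
    have e1 : toMedY W x₁ y₁ - (medModel W).toAffine.negY (toMedX x₁) (toMedY W x₁ y₁)
        = 8 * (y₁ - W.toAffine.negY x₁ y₁) := by
      rw [medHom_negY']
      simp only [toMedY, Affine.negY]
      ring
    rw [e1, medModel_a₂, medModel_a₁, medModel_a₄]
    field_simp
    simp only [toMedX, toMedY, Affine.negY, WeierstrassCurve.b₂, WeierstrassCurve.b₄]
    ring
  · have hX : toMedX x₁ ≠ toMedX x₂ := fun h => hx (medHom_toMedX_inj h2 h)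
    rw [Affine.slope_of_X_ne hX, Affine.slope_of_X_ne hx]
    have hne : x₁ - x₂ ≠ 0 := sub_ne_zero.mpr hx
    have hne' : toMedX x₁ - toMedX x₂ ≠ 0 := sub_ne_zero.mpr hX
    rw [div_eq_iff hne']
    simp only [toMedX, toMedY]
    field_simp
    ring

omit [DecidableEq F] in
lemma medHom_toMedEquiv_some (h2 : (2 : F) ≠ 0) {x y : F}
    (h : W.toAffine.Nonsingular x y) :
    toMedEquiv W h2 (Point.some x y h)
      = Point.some (toMedX x) (toMedY W x y) (toMed_nonsingular h2 h) := rfl

omit [DecidableEq F] in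
lemma medHom_toMedEquiv_zero (h2 : (2 : F) ≠ 0) :
    toMedEquiv W h2 (0 : W.toAffine.Point) = 0 := rfl

/-- **additivity** of the bijection onto the medium model -/
theorem medHom_toMedEquiv_add (h2 : (2 : F) ≠ 0)
    (P Q : W.toAffine.Point) :
    toMedEquiv W h2 (P + Q) = toMedEquiv W h2 P + toMedEquiv W h2 Q := by
  rcases P with _ | ⟨x₁, y₁, h₁⟩
  · change toMedEquiv W h2 (0 + Q) = 0 + toMedEquiv W h2 Q
    rw [zero_add, zero_add]
  rcases Q with _ | ⟨x₂, y₂, h₂⟩
  · change toMedEquiv W h2 (Point.some x₁ y₁ h₁ + 0)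
      = toMedEquiv W h2 (Point.some x₁ y₁ h₁) + 0
    rw [add_zero, add_zero]
  by_cases hxy : x₁ = x₂ ∧ y₁ = W.toAffine.negY x₂ y₂
  · rw [Point.add_of_Y_eq hxy.1 hxy.2, medHom_toMedEquiv_zero,
      medHom_toMedEquiv_some, medHom_toMedEquiv_some]
    symm
    apply Point.add_of_Y_eq
    · rw [hxy.1]
    · rw [medHom_negY, hxy.1, hxy.2]
  · have hXY : ¬(toMedX x₁ = toMedX x₂ ∧
        toMedY W x₁ y₁ = (medModel W).toAffine.negY (toMedX x₂) (toMedY W x₂ y₂)) := by
      rintro ⟨hX, hY⟩
      have hx := medHom_toMedX_inj h2 hX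
      apply hxy
      refine ⟨hx, ?_⟩
      subst hx
      rw [medHom_negY] at hY
      exact medHom_toMedY_inj W h2 hY
    rw [Point.add_some hxy, medHom_toMedEquiv_some, medHom_toMedEquiv_some,
      medHom_toMedEquiv_some, Point.add_some hXY]
    have hsl := medHom_slope W h2 h₁.1 h₂.1 hxy
    have hX : toMedX (W.toAffine.addX x₁ x₂ (W.toAffine.slope x₁ x₂ y₁ y₂))
        = (medModel W).toAffine.addX (toMedX x₁) (toMedX x₂)
            ((medModel W).toAffine.slope (toMedX x₁) (toMedX x₂) (toMedY W x₁ y₁)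
              (toMedY W x₂ y₂)) := by
      rw [hsl]
      simp only [Affine.addX, medModel_a₁, medModel_a₂, toMedX, WeierstrassCurve.b₂]
      ring
    have hY : toMedY W (W.toAffine.addX x₁ x₂ (W.toAffine.slope x₁ x₂ y₁ y₂))
          (W.toAffine.addY x₁ x₂ y₁ (W.toAffine.slope x₁ x₂ y₁ y₂))
        = (medModel W).toAffine.addY (toMedX x₁) (toMedX x₂) (toMedY W x₁ y₁)
            ((medModel W).toAffine.slope (toMedX x₁) (toMedX x₂) (toMedY W x₁ y₁)
              (toMedY W x₂ y₂)) := by
      rw [hsl]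
      simp only [Affine.addY, Affine.negAddY, Affine.addX, Affine.negY, medModel_a₁, medModel_a₂,
        medModel_a₃, toMedX, toMedY, WeierstrassCurve.b₂]
      ring
    simp only [Point.some.injEq]
    exact ⟨hX, hY⟩

/-- the bijection onto the medium model as an additive isomorphism -/
noncomputable def medHomAddEquiv (h2 : (2 : F) ≠ 0) :
    W.toAffine.Point ≃+ (medModel W).toAffine.Point :=
  { toMedEquiv W h2 with
    map_add' := medHom_toMedEquiv_add W h2 }

/-- transport of points along an equality of curves -/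
noncomputable def medHomCongr {W₁ W₂ : Affine F} (h : W₁ = W₂) : W₁.Point ≃+ W₂.Point :=
  h ▸ AddEquiv.refl _

lemma medHomCongr_some {W₁ W₂ : Affine F} (h : W₁ = W₂) {x y : F}
    (hxy : W₁.Nonsingular x y) :
    medHomCongr h (Point.some x y hxy) = Point.some x y (h ▸ hxy) := by
  subst h
  rfl

lemma medHomCongr_zero {W₁ W₂ : Affine F} (h : W₁ = W₂) :
    medHomCongr h (0 : W₁.Point) = 0 := map_zero _

end Field

section BaseChange

variable {R : Type*} [CommRing R] (W : WeierstrassCurve R)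
variable (k : Type*) [Field k] [Algebra R k]

lemma medHom_baseChange_eq :
    medModel (W.baseChange k) = (medW W.b₂ (8 * W.b₄) (16 * W.b₆)).baseChange k := by
  simp only [medModel, WeierstrassCurve.baseChange, medW, WeierstrassCurve.map_b₂,
    WeierstrassCurve.map_b₄, WeierstrassCurve.map_b₆]
  ext <;> simp [WeierstrassCurve.map, map_mul, map_ofNat]

variable [DecidableEq k]

/-- the medium model as a group isomorphism over an extension field -/
noncomputable def medHomBase (h2 : (2 : k) ≠ 0) :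
    (W⁄k).Point ≃+ ((medW W.b₂ (8 * W.b₄) (16 * W.b₆))⁄k).Point :=
  (medHomAddEquiv (W.baseChange k) h2).trans (medHomCongr (medHom_baseChange_eq W k))

lemma medHomBase_zero (h2 : (2 : k) ≠ 0) :
    medHomBase W k h2 0 = 0 := map_zero _

lemma medHomBase_some (h2 : (2 : k) ≠ 0) {x y : k}
    (h : (W⁄k).Nonsingular x y) :
    ∃ h' : ((medW W.b₂ (8 * W.b₄) (16 * W.b₆))⁄k).Nonsingular
        (toMedX x) (toMedY (W.baseChange k) x y),
      medHomBase W k h2 (Point.some x y h) = Point.some _ _ h' := by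
  have h0 := toMed_nonsingular (W := W.baseChange k) h2 h
  have h1 : ((medW W.b₂ (8 * W.b₄) (16 * W.b₆))⁄k).Nonsingular
      (toMedX x) (toMedY (W.baseChange k) x y) := by
    have e := medHom_baseChange_eq W k
    exact (congrArg (fun E : WeierstrassCurve.Affine k =>
      E.Nonsingular (toMedX x) (toMedY (W.baseChange k) x y)) e).mp h0
  refine ⟨h1, ?_⟩
  simp only [medHomBase, AddEquiv.trans_apply]
  exact medHomCongr_some (medHom_baseChange_eq W k) _

/-- compatibility with maps induced by algebra homomorphisms -/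
theorem medHomBase_map {k' : Type*} [Field k'] [Algebra R k'] [DecidableEq k']
    (h2 : (2 : k) ≠ 0) (h2' : (2 : k') ≠ 0)
    (f : k →ₐ[R] k') (P : (W⁄k).Point) :
    medHomBase W k' h2' (Affine.Point.map (W' := W) f P)
      = Affine.Point.map (W' := medW W.b₂ (8 * W.b₄) (16 * W.b₆)) f (medHomBase W k h2 P) := by
  rcases P with _ | ⟨x, y, h⟩
  · change medHomBase W k' h2' (Affine.Point.map (W' := W) f 0)
      = Affine.Point.map (W' := medW W.b₂ (8 * W.b₄) (16 * W.b₆)) f (medHomBase W k h2 0)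
    rw [map_zero, medHomBase_zero, medHomBase_zero, map_zero]
  · obtain ⟨h', e'⟩ := medHomBase_some W k h2 h
    rw [e', Affine.Point.map_some, Affine.Point.map_some]
    obtain ⟨h'', e''⟩ := medHomBase_some W k' h2'
      ((Affine.baseChange_nonsingular (W := W) f.injective x y).mpr h)
    rw [e'']
    simp only [Point.some.injEq]
    constructor
    · simp only [toMedX, map_mul, map_ofNat]
    · simp only [toMedY, WeierstrassCurve.baseChange, WeierstrassCurve.map_a₁,
        WeierstrassCurve.map_a₃, map_add, map_mul, map_ofNat, AlgHom.commutes]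

end BaseChange

lemma two_ne_zero_of_odd_prime {ℓ : ℕ} [Fact ℓ.Prime] (hℓ : ℓ ≠ 2) : (2 : ZMod ℓ) ≠ 0 := by
  have hprime : ℓ.Prime := Fact.out
  have : ((2 : ℕ) : ZMod ℓ) ≠ 0 := by
    rw [Ne, ZMod.natCast_eq_zero_iff]
    intro h
    exact hℓ ((Nat.prime_dvd_prime_iff_eq hprime Nat.prime_two).mp h)
  exact_mod_cast this

theorem medW_Δ_ne_zero {ℓ : ℕ} [Fact ℓ.Prime] (hℓ : ℓ ≠ 2) (W : WeierstrassCurve (ZMod ℓ))
    (hΔ : W.Δ ≠ 0) : (medW W.b₂ (8 * W.b₄) (16 * W.b₆)).Δ ≠ 0 :=
  medModel_Δ_ne_zero W (two_ne_zero_of_odd_prime hℓ) hΔ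

theorem exists_medHom {ℓ : ℕ} [Fact ℓ.Prime] (hℓ : ℓ ≠ 2) (W : WeierstrassCurve (ZMod ℓ))
    (k : Type*) [Field k] [Algebra (ZMod ℓ) k] [DecidableEq k] :
    ∃ h : (W⁄k).Point →+ ((medW W.b₂ (8 * W.b₄) (16 * W.b₆))⁄k).Point,
      Function.Injective h ∧
      ∀ P, h (frobPt W k P) = frobPt (medW W.b₂ (8 * W.b₄) (16 * W.b₆)) k (h P) := by
  have h2 := two_ne_zero_of_odd_prime hℓ
  have hinj := FaithfulSMul.algebraMap_injective (ZMod ℓ) k
  have h2k : (2 : k) ≠ 0 := by
    rw [← map_ofNat (algebraMap (ZMod ℓ) k) 2]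
    exact (map_ne_zero_iff _ hinj).mpr h2
  refine ⟨(medHomBase W k h2k).toAddMonoidHom, (medHomBase W k h2k).injective, ?_⟩
  intro P
  exact medHomBase_map W k h2k h2k (FiniteField.frobeniusAlgHom (ZMod ℓ) k) P

end Fermat.Agent.FrobTrace.Char3
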